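/-
Programme T1B (row 38 via S44), THE CONCRETE HUB (helper9): shared vocabulary for the last mile of
`LocalGeom`.  Twin of `T1/Assembly41/ConcreteHub.lean` (T1A).  Built ON TOP of
`T1B/Local66/LocalBase.lean` (`Wb p K`, `IsLevel`, `intSubring p E`, `algWO`, ... : not redefined).

Fixed: a prime `p` (odd), a good level `M'` (`4 ∣ M'`, `p ∤ M'`; in the application `M' = 4 * m`,
bad level `M' * p = 4 * m * p`), the place `A = padicPlace p` of `ℚ̄`, a number field `K ⊂ ℚ̄`
INERTIAL at `A` with `ζ_{M'} ∈ K` (`HubParams p M' K`), `W = Wb p K = A ∩ K`, uniformiser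
`piW p K = Assembly41.Concrete.unif p K`.

* SOURCE (nodal, level `M' * p`; `ES.N34.ModelDefs9` / `ES.P36.ModelQAt4` / `T1B.NodalCoh30`):
  `FS`, `tS`, `yS`, charts `B0S`, `B1S` (`B01S = B0S ⊔ B1S`), valuation rings `O1S`, `O2S`,
  `numDataS H : NodalNumData …`, `modelS H`, `c0S H : TwoChart W ↥B0S ↥B1S ↥(B0S ⊔ B1S)`,
  `DS H : CechData W ↥B0S ↥B1S ↥(B0S ⊔ B1S) (gS H)`;
* TARGET (smooth, level `M'`; T1A `Assembly41.Concrete` explicit model): `FT`, `tT`, `B0T`, `B1T`,
  `famT H`, `modelT H`, `exportsT H`, `c0T H`, `DT H : CechData W ↥B0T ↥B1T ↥(B0T ⊔ B1T) (gT H)`;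
* degeneracy maps `alphaST`, `betaST : FT →ₐ[K] FS`, Fricke `wS`;
* `kW p K` : the residue field of `W`.
-/
import Mathlib
import Fermat.Agent.T1B.Local66.LocalBase
import Fermat.Agent.ES.P36.ModelQAt4
import Fermat.Agent.ES.P36.InertField27
import Fermat.Agent.T1B.NodalCoh30.Concrete
import Fermat.Agent.T1.Assembly41.ConcreteHub
import Fermat.Agent.T1.Assembly41.FastInst
import Fermat.Agent.T1.ModelFacts62.HubFactsConcrete

set_option autoImplicit false
set_option linter.unusedSectionVars false
set_option linter.unusedVariables false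
set_option linter.style.haveILetI false

noncomputable section

namespace Fermat.Agent.T1B.Hub9

open Fermat.Agent Fermat.Agent.Jac
open Fermat.Agent.RED.Interface4 Fermat.Agent.RED.PUR.GaussGen8
open Fermat.Agent.RED.PUR.ChartGeneric22 Fermat.Agent.RED.BASE.Hauptmodul12
open Fermat.Agent.RED.BASE.EtaQuot12 Fermat.Agent.RED.CORE.CoreIface24
open Fermat.Agent.T1.ModelUnr4.Explicit Fermat.Agent.T1.Coh60
open Fermat.Agent.X0
open Fermat.Agent.T1.Assembly41.Concrete
open Fermat.Agent.T1B.Local66.LocalBase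
open Fermat.Agent.ES.N34.ModelDefs9 Fermat.Agent.ES.N34.NumData13
open Fermat.Agent.ES.P36.ModelQAt4 Fermat.Agent.ES.P36.InertField27
open scoped Fermat.Agent.T1.Assembly41.FastInst

attribute [local instance] Fermat.Agent.T1.Coh60.algebra0 Fermat.Agent.T1.Coh60.algebra1
  Fermat.Agent.T1.Coh60.isScalarTower0 Fermat.Agent.T1.Coh60.isScalarTower1

variable (p M' : ℕ) [Fact p.Prime] [NeZero p] [NeZero M'] (K : IntermediateField ℚ Qbar)

/-- **The parameters of the concrete hub**: `p` odd, `4 ∣ M'`, `p ∤ M'`, `ζ_{M'} ∈ K`, `K` inertial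
at `padicPlace p`. -/
structure HubParams : Prop where
  hp2 : p ≠ 2
  h4 : 4 ∣ M'
  hpM : ¬ p ∣ M'
  hζ : zetaK M' ∈ K
  hK : IsInertial (padicPlace p) K

variable {p M' K}

theorem HubParams.hp (H : HubParams p M' K) : p.Prime := Fact.out

/-- the Hauptmodul `t = tq K 4 8` lies in the function field of level `M'`. -/
theorem HubParams.htq (H : HubParams p M' K) : tq ↥K 4 8 ∈ FK M' K :=
  tq_mem_FK_of_baseHyp baseHyp_four H.h4 K

/-- a Frobenius inverse on `K`. -/
theorem HubParams.frobInvAt (H : HubParams p M' K) : FrobInvAt (padicPlace p) K p :=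
  exists_frobInv_of_isInertial H.hK p H.hp (hA p)

theorem HubParams.inertFixed (H : HubParams p M' K) : InertFixed (padicPlace p) K :=
  H.hK.inertFixed

/-! ### The base ring -/

variable (p K) in
/-- the chosen uniformiser of `W = Wb p K`. -/
abbrev piW [FiniteDimensional ℚ K] : Wb p K := unif p K

variable (p K) in
theorem piW_irreducible [FiniteDimensional ℚ K] : Irreducible (piW p K) := unif_irreducible p K

variable (p K) in
theorem isUnif_piW [FiniteDimensional ℚ K] : IsUnif (AK (padicPlace p) K) (piW p K) :=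
  isUnif_AK (hA p) K (unif_irreducible p K)

variable (p K) in
/-- the residue field of `W`. -/
abbrev kW : Type := IsLocalRing.ResidueField (Wb p K)

/-! ### The two function fields -/

variable (p M' K) in
/-- the function field of the bad level `M' * p` over `K`. -/
abbrev FS : Type := ↥(FK (M' * p) K)

variable (M' K) in
/-- the function field of the good level `M'` over `K`. -/
abbrev FT : Type := ↥(FK M' K)

variable (p M' K) in
theorem hES : FK (M' * p) K ≤ fracField (AK (padicPlace p) K) :=
  FK_le_fracField_AK (padicPlace p) K (M' * p)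

variable (p M' K) in
theorem hET : FK M' K ≤ fracField (AK (padicPlace p) K) :=
  FK_le_fracField_AK (padicPlace p) K M'

variable (p M' K) in
/-- `α = B_1^*` : `F_{M'} → F_{M' p}`, `f(𝐪) ↦ f(𝐪)`. -/
abbrev alphaST : FK M' K →ₐ[K] FK (M' * p) K := alpha K M' p

variable (p M' K) in
/-- `β = B_p^*` : `F_{M'} → F_{M' p}`, `f(𝐪) ↦ f(𝐪^p)`. -/
abbrev betaST : FK M' K →ₐ[K] FK (M' * p) K := beta K M' p

variable (p M' K) in
/-- the Fricke involution of the bad level. -/
abbrev wS : FK (M' * p) K →ₐ[K] FK (M' * p) K := wN K M' p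

/-! ### The source: the nodal model of level `M' * p` -/

/-- the Hauptmodul at the bad level. -/
abbrev tS (H : HubParams p M' K) : FS p M' K := tN p H.htq

/-- `y = t(𝐪^p)` at the bad level. -/
abbrev yS (H : HubParams p M' K) : FS p M' K := yN p H.htq

/-- source chart `0`. -/
abbrev B0S (H : HubParams p M' K) : Subalgebra (Wb p K) (FS p M' K) := B0 (padicPlace p) p H.htq

/-- source chart `1`. -/
abbrev B1S (H : HubParams p M' K) : Subalgebra (Wb p K) (FS p M' K) := B1 (padicPlace p) p H.htq

variable (p M' K) in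
/-- the Gauss valuation ring at the cusp `∞`. -/
abbrev O1S [FiniteDimensional ℚ K] : ValuationSubring (FS p M' K) :=
  O1 M' p (isUnif_piW p K) (hES p M' K)

variable (p M' K) in
/-- the Gauss valuation ring at the cusp `0`. -/
abbrev O2S [FiniteDimensional ℚ K] : ValuationSubring (FS p M' K) :=
  O2 M' p (isUnif_piW p K) (hES p M' K)

variable [FiniteDimensional ℚ K]

/-- **The nodal model bundle of the source.** -/
theorem numDataS (H : HubParams p M' K) :
    NodalNumData (Wb p K) ↥K (FS p M' K) (piW p K) (tS H) (B0S H) (B1S H)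
      (O1S p M' K) (O2S p M' K) := by
  obtain ⟨ht, hE, h⟩ := nodalNumData_four_at (A := padicPlace p) (K := K) (M' := M') H.hp H.hp2
    H.hpM H.h4 (hA p) H.hζ H.frobInvAt
  exact h (piW p K) (isUnif_piW p K)

end Fermat.Agent.T1B.Hub9
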