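/-
Programme T1B (row 38 via S44), THE CONCRETE HUB (helper9), part 2: THE TWO CHART SYSTEMS AND ČECH DATA.

(see `Hub9/Base.lean` for the parameters `H : HubParams p M' K`, `W = Wb p K`, `piW p K`, `FS`, `FT`,
`tS H`, `B0S H`, `B1S H`, `O1S`, `O2S`, `numDataS H`.)

* SOURCE (nodal, level `M' * p`): `modelS H`, `c0S H`, `gS H`, `DS H`, `DS_ρ0`, `DS_ρ1`;
* TARGET (smooth, level `M'`): `famT H`, `tT H`, `B0T H`, `B1T H`, `OvT`, `modelT H`, `exportsT H`,
  `c0T H`, `gT H`, `DT H`, `DT_ρ0`, `DT_ρ1`; `alphaST_tT`, `betaST_tT`;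
* the residue field: `maximalIdeal_eq_span_piW`, `span_piW_isMaximal`, `kW_surjective`, `kW_ker`;
* number fields `L ⊇ K`: `algWL`, `algKL9`, `algWLfield` (re-exports of `HubInst98`).
-/
import Mathlib
import Fermat.Agent.T1B.Hub9.Base

set_option autoImplicit false
set_option linter.unusedSectionVars false
set_option linter.unusedVariables false
set_option linter.style.haveILetI false

noncomputable section

namespace Fermat.Agent.T1B.Hub9

open Fermat.Agent Fermat.Agent.Jac
open Fermat.Agent.RED.Interface4 Fermat.Agent.RED.PUR.GaussGen8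
open Fermat.Agent.RED.PUR.ChartGeneric22 Fermat.Agent.RED.BASE.Hauptmodul12
open Fermat.Agent.RED.BASE.EtaQuot12 Fermat.Agent.RED.CORE.CoreIface24
open Fermat.Agent.T1.ModelUnr4.Explicit Fermat.Agent.T1.Coh60
open Fermat.Agent.X0
open Fermat.Agent.T1.Assembly41.Concrete
open Fermat.Agent.T1B.Local66.LocalBase
open Fermat.Agent.ES.N34.ModelDefs9 Fermat.Agent.ES.N34.NumData13 Fermat.Agent.ES.N34.NodalCore13
open Fermat.Agent.ES.P36.ModelQAt4 Fermat.Agent.ES.P36.InertField27
open Fermat.Agent.T1B.NodalFacts23 Fermat.Agent.T1B.NodalCoh30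
open Fermat.Agent.T1.CechFormal70
open Fermat.Agent.T1.ModelFacts62.G0Wired Fermat.Agent.T1.ModelFacts62.HubFactsConcrete
open scoped Fermat.Agent.T1.Assembly41.FastInst

attribute [local instance] Fermat.Agent.T1.Coh60.algebra0 Fermat.Agent.T1.Coh60.algebra1
  Fermat.Agent.T1.Coh60.isScalarTower0 Fermat.Agent.T1.Coh60.isScalarTower1

variable {p M' : ℕ} [Fact p.Prime] [NeZero p] [NeZero M'] {K : IntermediateField ℚ Qbar}
  [FiniteDimensional ℚ K]

/-! ### The source chart system and Čech datum -/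

/-- the nodal two-chart model of the source. -/
theorem modelS (H : HubParams p M' K) :
    NodalTwoChartModel (Wb p K) (FS p M' K) (piW p K) (tS H) (B0S H) (B1S H)
      (O1S p M' K) (O2S p M' K) :=
  (numDataS H).model

/-- **The source chart system** (nodal, level `M' * p`) over `W = Wb p K`: coordinates
`t = tS H` on `↥(B0S H)`, `t⁻¹` on `↥(B1S H)`, overlap `↥(B0S H ⊔ B1S H)`. -/
def c0S (H : HubParams p M' K) :
    @TwoChart (Wb p K) ↥(B0S H) ↥(B1S H) ↥(B0S H ⊔ B1S H) _ _ _ _ _ _ _
      (algebra0 (B0S H) (B1S H)) (algebra1 (B0S H) (B1S H))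
      (isScalarTower0 (B0S H) (B1S H)) (isScalarTower1 (B0S H) (B1S H)) :=
  nodalChart (modelS H)

/-- the arithmetic genus of the source (`= rank H¹(O_X)`). -/
def gS (H : HubParams p M' K) : ℕ :=
  (cohDatum_of_numData (numDataS H)).genus
    (specialH0_of_numData (numDataS H) (resAlgClosed_O1 M' p (isUnif_piW p K) (hES p M' K))
      (resAlgClosed_O2 M' p (isUnif_piW p K) (hES p M' K)))

/-- **The Čech datum of the source.** -/
def DS (H : HubParams p M' K) : CechData (Wb p K) ↥(B0S H) ↥(B1S H) ↥(B0S H ⊔ B1S H) (gS H) :=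
  concreteCechData (isUnif_piW p K) (hES p M' K) (numDataS H)

theorem DS_ρ0 (H : HubParams p M' K) (x : ↥(B0S H)) :
    (DS H).ρ0 x = algebraMap ↥(B0S H) ↥(B0S H ⊔ B1S H) x := rfl

theorem DS_ρ1 (H : HubParams p M' K) (x : ↥(B1S H)) :
    (DS H).ρ1 x = algebraMap ↥(B1S H) ↥(B0S H ⊔ B1S H) x := rfl

theorem coe_c0S_t (H : HubParams p M' K) : (((c0S H).t : ↥(B0S H)) : FS p M' K) = tS H := rfl

theorem coe_c0S_s (H : HubParams p M' K) : (((c0S H).s : ↥(B1S H)) : FS p M' K) = (tS H)⁻¹ := rfl

/-! ### The target: the smooth model of level `M'` -/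

/-- helper4's explicit model family at level `M'` (T1A, brick G0). -/
theorem famT (H : HubParams p M' K) : ModelFamily p M' 4 8 := modelFamily_four p M' H.h4 H.hpM

/-- the Hauptmodul at the good level. -/
abbrev tT (H : HubParams p M' K) : FT M' K := tK (famT H) K

/-- target chart `0`. -/
abbrev B0T (H : HubParams p M' K) : Subalgebra (Wb p K) (FT M' K) := B0K (famT H) K

/-- target chart `1`. -/
abbrev B1T (H : HubParams p M' K) : Subalgebra (Wb p K) (FT M' K) := B1K (famT H) K

variable (p M' K) in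
/-- the Gauss valuation ring of the good level. -/
abbrev OvT : ValuationSubring (FT M' K) := gaussVS (isUnif_piW p K) (FK M' K) (hET p M' K)

theorem tT_eq_tM (H : HubParams p M' K) : tT H = tM H.htq := rfl

theorem B0T_eq_B0M (H : HubParams p M' K) : B0T H = B0M (padicPlace p) H.htq := rfl

theorem B1T_eq_B1M (H : HubParams p M' K) : B1T H = B1M (padicPlace p) H.htq := rfl

theorem alphaST_tT (H : HubParams p M' K) : alphaST p M' K (tT H) = tS H := rfl

theorem betaST_tT (H : HubParams p M' K) : betaST p M' K (tT H) = yS H := rfl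

/-- the smooth two-chart model of the target. -/
theorem modelT (H : HubParams p M' K) :
    TwoChartModel (Wb p K) ↥K (FT M' K) (piW p K) (tT H) (B0T H) (B1T H) (OvT p M' K) :=
  modelK (famT H) K H.hζ

/-- all G0 exports of the target model (helper62). -/
theorem exportsT (H : HubParams p M' K) :
    G0Exports (AK (padicPlace p) K) (FK M' K) (piW p K) (isUnif_piW p K) (hET p M' K) (tT H) :=
  exportsK (famT H) K H.hζ

/-- **The target chart system** (smooth, level `M'`) over `W = Wb p K`. -/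
def c0T (H : HubParams p M' K) :
    @TwoChart (Wb p K) ↥(B0T H) ↥(B1T H) ↥(B0T H ⊔ B1T H) _ _ _ _ _ _ _
      (algebra0 (B0T H) (B1T H)) (algebra1 (B0T H) (B1T H))
      (isScalarTower0 (B0T H) (B1T H)) (isScalarTower1 (B0T H) (B1T H)) :=
  modelChart (modelT H)

/-- the genus of the target. -/
def gT (H : HubParams p M' K) : ℕ :=
  Fermat.Agent.T1.ModelCoh30.genus (modelT H) (exportsT H).resAlgClosed

/-- **The Čech datum of the target.** -/
def DT (H : HubParams p M' K) : CechData (Wb p K) ↥(B0T H) ↥(B1T H) ↥(B0T H ⊔ B1T H) (gT H) :=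
  Fermat.Agent.T1.ModelCoh30.cechData (modelT H) (exportsT H).hKF (exportsT H).resAlgClosed

theorem DT_ρ0 (H : HubParams p M' K) (x : ↥(B0T H)) :
    (DT H).ρ0 x = algebraMap ↥(B0T H) ↥(B0T H ⊔ B1T H) x := rfl

theorem DT_ρ1 (H : HubParams p M' K) (x : ↥(B1T H)) :
    (DT H).ρ1 x = algebraMap ↥(B1T H) ↥(B0T H ⊔ B1T H) x := rfl

theorem coe_c0T_t (H : HubParams p M' K) : (((c0T H).t : ↥(B0T H)) : FT M' K) = tT H := rfl

theorem coe_c0T_s (H : HubParams p M' K) : (((c0T H).s : ↥(B1T H)) : FT M' K) = (tT H)⁻¹ := rfl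

/-! ### The residue field of `W` -/

variable (p K) in
theorem maximalIdeal_eq_span_piW :
    IsLocalRing.maximalIdeal (Wb p K) = Ideal.span {piW p K} :=
  haveI := isDVR p K
  (piW_irreducible p K).maximalIdeal_eq

variable (p K) in
theorem span_piW_isMaximal : (Ideal.span {piW p K}).IsMaximal := by
  rw [← maximalIdeal_eq_span_piW]
  exact IsLocalRing.maximalIdeal.isMaximal _

variable (p K) in
theorem kW_surjective : Function.Surjective (algebraMap (Wb p K) (kW p K)) := by
  rw [IsLocalRing.ResidueField.algebraMap_eq]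
  exact IsLocalRing.residue_surjective

variable (p K) in
theorem kW_ker (x : Wb p K) (hx : algebraMap (Wb p K) (kW p K) x = 0) :
    x ∈ Ideal.span {piW p K} := by
  rw [← maximalIdeal_eq_span_piW]
  rw [IsLocalRing.ResidueField.algebraMap_eq] at hx
  exact (IsLocalRing.residue_eq_zero_iff x).1 hx

/-! ### Number fields `L ⊇ K` -/

variable {L : IntermediateField ℚ Qbar}

variable (p) in
/-- `A ∩ L` as a `W`-algebra (`HubInst98.algAK`; reducible, use `letI`). -/
abbrev algWL (hKL : K ≤ L) : Algebra (Wb p K) (Wb p L) :=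
  Fermat.Agent.T1.HubInst98.algAK (padicPlace p) hKL

/-- `L` as a `K`-algebra (`HubInst98.algKL`; reducible, use `letI`). -/
abbrev algKL9 (hKL : K ≤ L) : Algebra ↥K ↥L := Fermat.Agent.T1.HubInst98.algKL hKL

variable (p) in
/-- `L` as a `W`-algebra (`HubInst98.algAKL`; reducible, use `letI`). -/
abbrev algWLfield (hKL : K ≤ L) : Algebra (Wb p K) ↥L :=
  Fermat.Agent.T1.HubInst98.algAKL (padicPlace p) hKL

end Fermat.Agent.T1B.Hub9
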