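/-
Programme T1B (S44), CONCRETE HUB (helper9), generic part: FUNCTORIALITY OF helper3's AMBIENT FIELD
`FΩ K Ω F = Frac (Ω ⊗[K] F)` IN THE CONSTANT FIELD `Ω`.

`K ⊂ Ω ⊂ Ω'` fields (`φ : Ω →ₐ[K] Ω'`), `F / K` a field.

* `tensMap φ : Ω ⊗[K] F →ₐ[K] Ω' ⊗[K] F` (`φ ⊗ id`), `tensMap_injective`;
* `mapΩ φ : FΩ K Ω F →+* FΩ K Ω' F` with `mapΩ_constΩ`, `mapΩ_βΩ`, `mapΩ_algebraMap`;
* `eΩ_mapΩ` : expansions commute with `mapΩ` (`eΩ e he (mapΩ φ z) = coeffMap φ (eΩ e he z)`);
* `mapΩ_kappa` : compatibility with helper69's `InjLaurent69.kappa` (the structure maps of the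
  integral chart rings `O ⊗[W] B`) : `mapΩ φ (kappa ι hι x) = kappa ι hι ((ψ ⊗ id) x)` for
  `ψ : O →ₐ[W] O'` compatible with `φ`.  This is the `compat` hypothesis of `AD21.Tensor.setting_tensor`.
-/
import Mathlib
import Fermat.Prelude.Def_ModularCurve_LaurentCoeff
import Fermat.Agent.T1B.Hecke3.Omega.Base
import Fermat.Agent.T1B.InjLaurent69.Ambient

set_option autoImplicit false
set_option linter.unusedSectionVars false

noncomputable section

namespace Fermat.Agent.T1B.Hub9.OmegaMap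

open HahnSeries ModularCurve TensorProduct
open Fermat.Agent.T1B.Hecke3.Omega Fermat.Agent.T1B.InjLaurent69

section MapOmega

variable {K Ω Ω' F : Type*} [Field K] [Field Ω] [Field Ω'] [Field F] [Algebra K Ω] [Algebra K Ω']
  [Algebra K F] (φ : Ω →ₐ[K] Ω')

/-- `φ ⊗ id : Ω ⊗[K] F → Ω' ⊗[K] F`. -/
def tensMap : Ω ⊗[K] F →ₐ[K] Ω' ⊗[K] F := Algebra.TensorProduct.map φ (AlgHom.id K F)

@[simp] theorem tensMap_tmul (c : Ω) (f : F) : tensMap φ (c ⊗ₜ[K] f) = φ c ⊗ₜ[K] f := by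
  simp [tensMap]

theorem tensMap_injective : Function.Injective (tensMap (F := F) φ) := by
  have h := Module.Flat.rTensor_preserves_injective_linearMap (M := F) φ.toLinearMap φ.injective
  intro x y hxy
  apply h
  have key : ∀ z : Ω ⊗[K] F, (φ.toLinearMap.rTensor F) z = tensMap φ z := by
    intro z
    induction z using TensorProduct.induction_on with
    | zero => simp
    | tmul c f => simp
    | add a b ha hb => rw [map_add, map_add, ha, hb]
  rw [key, key, hxy]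

variable [IsDomain (Ω ⊗[K] F)] [IsDomain (Ω' ⊗[K] F)]

/-- **`FΩ K Ω F → FΩ K Ω' F`** induced by `φ : Ω → Ω'`. -/
def mapΩ : FΩ K Ω F →+* FΩ K Ω' F :=
  IsFractionRing.lift (A := Ω ⊗[K] F) (K := FΩ K Ω F)
    (g := (algebraMap (Ω' ⊗[K] F) (FΩ K Ω' F)).comp (tensMap (F := F) φ).toRingHom)
    ((IsFractionRing.injective (Ω' ⊗[K] F) (FΩ K Ω' F)).comp (tensMap_injective φ))

theorem mapΩ_algebraMap (x : Ω ⊗[K] F) :
    mapΩ φ (algebraMap (Ω ⊗[K] F) (FΩ K Ω F) x) =
      algebraMap (Ω' ⊗[K] F) (FΩ K Ω' F) (tensMap φ x) :=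
  IsFractionRing.lift_algebraMap _ x

@[simp] theorem mapΩ_constΩ (c : Ω) : mapΩ (F := F) φ (constΩ K Ω F c) = constΩ K Ω' F (φ c) := by
  rw [constΩ_apply, mapΩ_algebraMap, tensMap_tmul, constΩ_apply]

@[simp] theorem mapΩ_βΩ (f : F) : mapΩ φ (βΩ K Ω F f) = βΩ K Ω' F f := by
  rw [βΩ_apply, mapΩ_algebraMap, tensMap_tmul, map_one, βΩ_apply]

theorem mapΩ_injective : Function.Injective (mapΩ (F := F) φ) := (mapΩ φ).injective

/-- `coeffMap` of a composite. -/
theorem coeffMap_coeffMap_aux {R S T : Type*} [CommRing R] [CommRing S] [CommRing T]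
    (f : R →+* S) (g : S →+* T) (x : LaurentSeries R) :
    coeffMap g (coeffMap f x) = coeffMap (g.comp f) x := by
  ext n
  simp [coeffMap_coeff]

variable (e : F →+* LaurentSeries K) (he : ∀ c : K, e (algebraMap K F c) = HahnSeries.C c)

theorem embT_tensMap (x : Ω ⊗[K] F) :
    embT (Ω := Ω') e he (tensMap φ x) = coeffMap (φ : Ω →+* Ω') (embT (Ω := Ω) e he x) := by
  induction x using TensorProduct.induction_on with
  | zero => simp
  | tmul c f =>
    have hcomp : (φ : Ω →+* Ω').comp (algebraMap K Ω) = algebraMap K Ω' :=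
      RingHom.ext fun k => φ.commutes k
    rw [tensMap_tmul, embT_tmul, embT_tmul, map_mul, coeffMap_C_aux, coeffMap_coeffMap_aux, hcomp]
    rfl
  | add a b ha hb => simp only [map_add, ha, hb]

/-- **Expansions commute with `mapΩ`.** -/
theorem eΩ_mapΩ (z : FΩ K Ω F) :
    eΩ (Ω := Ω') e he (mapΩ φ z) = coeffMap (φ : Ω →+* Ω') (eΩ (Ω := Ω) e he z) := by
  obtain ⟨n, s, hs, rfl⟩ := exists_div z
  rw [map_div₀, map_div₀, map_div₀, mapΩ_algebraMap, mapΩ_algebraMap, eΩ_algebraMap,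
    eΩ_algebraMap, eΩ_algebraMap, eΩ_algebraMap, embT_tensMap, embT_tensMap]
  have hinj : Function.Injective (coeffMap (φ : Ω →+* Ω') : LaurentSeries Ω →+* LaurentSeries Ω') := by
    intro a b hab
    ext k
    have := congrArg (fun x : LaurentSeries Ω' => x.coeff k) hab
    simp only [coeffMap_coeff] at this
    exact φ.injective this
  have hs' : embT (Ω := Ω) e he s ≠ 0 := fun h0 => hs (embT_injective e he (by rw [h0, map_zero]))
  have hs'' : coeffMap (φ : Ω →+* Ω') (embT (Ω := Ω) e he s) ≠ 0 :=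
    fun h0 => hs' (hinj (by rw [h0, map_zero]))
  rw [div_eq_iff hs'', ← map_mul, div_mul_cancel₀ _ hs']

/-! ### Compatibility with the integral chart rings -/

section Kappa

variable {W O O' B : Type*} [CommRing W] [CommRing O] [CommRing O'] [CommRing B]
  [Algebra W K] [IsFractionRing W K] [Algebra W Ω] [IsScalarTower W K Ω]
  [Algebra W Ω'] [IsScalarTower W K Ω']
  [Algebra W O] [Algebra O Ω] [IsScalarTower W O Ω]
  [Algebra W O'] [Algebra O' Ω'] [IsScalarTower W O' Ω'] [Algebra W B]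
  (ι : B →+* F) (hι : ∀ w : W, ι (algebraMap W B w) = algebraMap K F (algebraMap W K w))
  (ψ : O →ₐ[W] O') (hψ : ∀ o : O, algebraMap O' Ω' (ψ o) = φ (algebraMap O Ω o))

include hψ in
/-- **`mapΩ φ ∘ kappa = kappa ∘ (ψ ⊗ id)`** : the `compat` of `AD21.Tensor.setting_tensor`. -/
theorem mapΩ_kappa (x : O ⊗[W] B) :
    mapΩ φ (kappa (Ω := Ω) (O := O) ι hι x) =
      kappa (Ω := Ω') (O := O') ι hι (Algebra.TensorProduct.map ψ (AlgHom.id W B) x) := by
  induction x using TensorProduct.induction_on with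
  | zero => simp
  | tmul o b =>
    rw [kappa_tmul, map_mul, mapΩ_constΩ, mapΩ_βΩ, Algebra.TensorProduct.map_tmul, kappa_tmul, hψ]
    rfl
  | add a b ha hb => simp only [map_add, ha, hb]

end Kappa

end MapOmega

/-! ### Functoriality in the function field `F` -/

section MapF

variable {K Ω F F' : Type*} [Field K] [Field Ω] [Field F] [Field F'] [Algebra K Ω]
  [Algebra K F] [Algebra K F'] (f : F →ₐ[K] F')

/-- `id ⊗ f : Ω ⊗[K] F → Ω ⊗[K] F'`. -/
def tensMapF : Ω ⊗[K] F →ₐ[K] Ω ⊗[K] F' := Algebra.TensorProduct.map (AlgHom.id K Ω) f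

@[simp] theorem tensMapF_tmul (c : Ω) (x : F) :
    tensMapF (Ω := Ω) f (c ⊗ₜ[K] x) = c ⊗ₜ[K] f x := by
  simp [tensMapF]

theorem tensMapF_injective : Function.Injective (tensMapF (Ω := Ω) f) := by
  have h := Module.Flat.lTensor_preserves_injective_linearMap (M := Ω) f.toLinearMap f.injective
  intro x y hxy
  apply h
  have key : ∀ z : Ω ⊗[K] F, (f.toLinearMap.lTensor Ω) z = tensMapF (Ω := Ω) f z := by
    intro z
    induction z using TensorProduct.induction_on with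
    | zero => simp
    | tmul c x => simp
    | add a b ha hb => rw [map_add, map_add, ha, hb]
  rw [key, key, hxy]

variable [IsDomain (Ω ⊗[K] F)] [IsDomain (Ω ⊗[K] F')]

/-- **`FΩ K Ω F → FΩ K Ω F'`** induced by `f : F →ₐ[K] F'` (e.g. the degeneracy maps). -/
def mapF : FΩ K Ω F →+* FΩ K Ω F' :=
  IsFractionRing.lift (A := Ω ⊗[K] F) (K := FΩ K Ω F)
    (g := (algebraMap (Ω ⊗[K] F') (FΩ K Ω F')).comp (tensMapF (Ω := Ω) f).toRingHom)
    ((IsFractionRing.injective (Ω ⊗[K] F') (FΩ K Ω F')).comp (tensMapF_injective f))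

theorem mapF_algebraMap (x : Ω ⊗[K] F) :
    mapF f (algebraMap (Ω ⊗[K] F) (FΩ K Ω F) x) =
      algebraMap (Ω ⊗[K] F') (FΩ K Ω F') (tensMapF (Ω := Ω) f x) :=
  IsFractionRing.lift_algebraMap _ x

@[simp] theorem mapF_constΩ (c : Ω) : mapF f (constΩ K Ω F c) = constΩ K Ω F' c := by
  rw [constΩ_apply, mapF_algebraMap, tensMapF_tmul, map_one, constΩ_apply]

@[simp] theorem mapF_βΩ (x : F) : mapF (Ω := Ω) f (βΩ K Ω F x) = βΩ K Ω F' (f x) := by
  rw [βΩ_apply, mapF_algebraMap, tensMapF_tmul, βΩ_apply]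

end MapF

end Fermat.Agent.T1B.Hub9.OmegaMap
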