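/-
Programme T1B (row 38 via S44), THE CONCRETE HUB (helper9), part 3: THE AMBIENT FIELDS.

For a level `N`, a number field `K ⊂ ℚ̄` and ANY field `Ω ⊇ K` (`[Algebra ↥K Ω]`):

* `expAt N K : ↥(FK N K) →+* K((q))` (the expansion at `∞`, `= Subtype.val`), `expAt_const`,
  `expAt_injective`; the scoped instance `isDomainTensorFK : IsDomain (Ω ⊗[↥K] ↥(FK N K))`;
* `Fh N K Ω := Hecke3.Omega.FΩ ↥K Ω ↥(FK N K) = Frac (Ω ⊗[↥K] K·F_N)` : the ambient field;
  `FhS p M' K Ω := Fh (M' * p) K Ω` (source), `FhT M' K Ω := Fh M' K Ω` (target);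
  `expFh N K Ω : Fh N K Ω →+* Ω((q))` (`= eΩ (expAt N K) …`);
* `kap Ω O B : O ⊗[W] ↥B →+* Fh N K Ω` (`W = ↥(AK A K)`, `B : Subalgebra W ↥(FK N K)`,
  `o ⊗ b ↦ const o * β b`; helper69's `InjLaurent69.kappa`), `kap_tmul`, `kap_injective`
  (`B` flat over `W`, `O → Ω` injective), `expFh_kap`; `algKap Ω O B : Algebra (O ⊗[W] ↥B) (Fh N K Ω)`
  (reducible, use `letI`);
* levels: `algKE9 hE : Algebra ↥K ↥E` (`E` a level of `K`), `towerWKE9`; `phiLE hKL hE hLE : ↥L →ₐ[↥K] ↥E`;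
  `mapLE … : Fh N K ↥L →+* Fh N K ↥E` (the map `F → F̂` of the cell AD), `mapLE_kap` (the `compat`
  of `AD21.Tensor.setting_tensor`);
* `mapAlpha`, `mapBeta : FhT M' K Ω →+* FhS p M' K Ω` (induced by the degeneracy maps).
-/
import Mathlib
import Fermat.Agent.T1B.Hub9.Data
import Fermat.Agent.T1B.Hub9.OmegaMap

set_option autoImplicit false
set_option linter.unusedSectionVars false
set_option linter.unusedVariables false
set_option linter.style.haveILetI false

noncomputable section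

namespace Fermat.Agent.T1B.Hub9

open HahnSeries ModularCurve TensorProduct
open Fermat.Agent Fermat.Agent.Jac
open Fermat.Agent.RED.Interface4 Fermat.Agent.RED.PUR.GaussGen8
open Fermat.Agent.T1.HubInst98
open Fermat.Agent.TW.B5.Iface Fermat.Agent.T1.LocModel46 Fermat.Agent.T1.IntSub47
open Fermat.Agent.T1B.Local66.LocalBase
open Fermat.Agent.ES.N34.ModelDefs9
open Fermat.Agent.T1B.Hecke3.Omega Fermat.Agent.T1B.InjLaurent69
open Fermat.Agent.T1B.Hub9.OmegaMap
open scoped Fermat.Agent.T1.Assembly41.FastInst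

/-! ### The expansion at `∞` and the ambient field -/

section Expansion

variable (N : ℕ) (K : IntermediateField ℚ Qbar)

/-- the expansion at `∞` of `K·F_N ⊂ K((q))`. -/
def expAt : ↥(FK N K) →+* LaurentSeries ↥K := ((FK N K).val : ↥(FK N K) →+* LaurentSeries ↥K)

@[simp] theorem expAt_apply (x : ↥(FK N K)) : expAt N K x = (x : LaurentSeries ↥K) := rfl

theorem expAt_const (c : ↥K) : expAt N K (algebraMap ↥K ↥(FK N K) c) = HahnSeries.C c :=
  algebraMap_eq_C c

theorem expAt_injective : Function.Injective (expAt N K) := Subtype.val_injective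

/-- `Ω ⊗[K] K·F_N` is a domain, for every field `Ω ⊇ K`. -/
scoped instance isDomainTensorFK (Ω : Type*) [Field Ω] [Algebra ↥K Ω] :
    IsDomain (Ω ⊗[↥K] ↥(FK N K)) :=
  isDomain_tensor (expAt N K) (expAt_const N K)

variable (Ω : Type*) [Field Ω] [Algebra ↥K Ω]

/-- **The ambient field** `Frac (Ω ⊗[K] K·F_N)` (helper3's `FΩ`). -/
abbrev Fh : Type _ := FΩ ↥K Ω ↥(FK N K)

/-- the expansion at `∞` of the ambient field. -/
def expFh : Fh N K Ω →+* LaurentSeries Ω := eΩ (Ω := Ω) (expAt N K) (expAt_const N K)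

theorem expFh_const (c : Ω) : expFh N K Ω (constΩ ↥K Ω ↥(FK N K) c) = HahnSeries.C c :=
  eΩ_const _ _ c

theorem expFh_beta (f : ↥(FK N K)) :
    expFh N K Ω (βΩ ↥K Ω ↥(FK N K) f) = coeffMap (algebraMap ↥K Ω) (f : LaurentSeries ↥K) :=
  eΩ_beta _ _ f

end Expansion

variable (p M' : ℕ) (K : IntermediateField ℚ Qbar) in
/-- the ambient field of the SOURCE (bad level `M' * p`). -/
abbrev FhS (Ω : Type*) [Field Ω] [Algebra ↥K Ω] : Type _ := Fh (M' * p) K Ω

variable (M' : ℕ) (K : IntermediateField ℚ Qbar) in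
/-- the ambient field of the TARGET (good level `M'`). -/
abbrev FhT (Ω : Type*) [Field Ω] [Algebra ↥K Ω] : Type _ := Fh M' K Ω

/-! ### The integral chart rings inside the ambient field -/

section Kap

variable {A : ValuationSubring Qbar} {N : ℕ} {K : IntermediateField ℚ Qbar}
  (Ω : Type*) [Field Ω] [Algebra ↥K Ω] [Algebra ↥(AK A K) Ω] [IsScalarTower ↥(AK A K) ↥K Ω]
  (O : Type*) [CommRing O] [Algebra ↥(AK A K) O] [Algebra O Ω] [IsScalarTower ↥(AK A K) O Ω]
  (B : Subalgebra ↥(AK A K) ↥(FK N K))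

theorem val_algebraMap (w : ↥(AK A K)) :
    (B.val : ↥B →+* ↥(FK N K)) (algebraMap ↥(AK A K) ↥B w) =
      algebraMap ↥K ↥(FK N K) (algebraMap ↥(AK A K) ↥K w) :=
  IsScalarTower.algebraMap_apply ↥(AK A K) ↥K ↥(FK N K) w

/-- **The structure map of the integral chart ring `O ⊗[W] B` into the ambient field**:
`o ⊗ b ↦ constΩ o * βΩ b`. -/
def kap : O ⊗[↥(AK A K)] ↥B →+* Fh N K Ω :=
  kappa (K := ↥K) (Ω := Ω) (F := ↥(FK N K)) (O := O) (B.val : ↥B →+* ↥(FK N K)) (val_algebraMap B)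

@[simp] theorem kap_tmul (o : O) (b : ↥B) :
    kap Ω O B (o ⊗ₜ[↥(AK A K)] b) =
      constΩ ↥K Ω ↥(FK N K) (algebraMap O Ω o) * βΩ ↥K Ω ↥(FK N K) (b : ↥(FK N K)) :=
  kappa_tmul _ _ o b

theorem kap_injective [Module.Flat ↥(AK A K) ↥B] (hO : Function.Injective (algebraMap O Ω)) :
    Function.Injective (kap Ω O B) :=
  kappa_injective _ _ (expAt N K) (expAt_const N K) hO (fun _ _ h => Subtype.ext h)

/-- the expansion of the image of the chart ring. -/
theorem expFh_kap (x : O ⊗[↥(AK A K)] ↥B) :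
    expFh N K Ω (kap Ω O B x) =
      intExp (L := Ω) (O := O) ((expAt N K).comp (B.val : ↥B →+* ↥(FK N K)))
        (comp_const _ (val_algebraMap B) (expAt N K) (expAt_const N K)) x :=
  eΩ_kappa _ _ _ _ x

/-- `Fh N K Ω` as an algebra over the chart ring `O ⊗[W] B` (reducible: use `letI`). -/
abbrev algKap : Algebra (O ⊗[↥(AK A K)] ↥B) (Fh N K Ω) := (kap Ω O B).toAlgebra

end Kap

/-! ### Levels: `L → E` and the map `F → F̂` -/

section Levels

variable {p : ℕ} [Fact p.Prime] {K L : IntermediateField ℚ Qbar}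
  {E : IntermediateField ℚ_[p] (Kbar p)}

/-- `E` as a `K`-algebra (`E` a level of `K`; reducible, use `letI`). -/
abbrev algKE9 (hE : IsLevel p K E) : Algebra ↥K ↥E := (toE hE).toAlgebra

theorem towerWKE9 (hE : IsLevel p K E) :
    letI := algKE9 hE
    letI := algWE hE
    IsScalarTower (Wb p K) ↥K ↥E := by
  letI := algKE9 hE
  letI := algWE hE
  exact IsScalarTower.of_algebraMap_eq' rfl

theorem isLevel_of_le (hKL : K ≤ L) (hLE : IsLevel p L E) : IsLevel p K E :=
  fun x => hLE (IntermediateField.inclusion hKL x)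

/-- `L → E` over `K` (`K ≤ L` number fields, `E` a level of `L`). -/
def phiLE (hKL : K ≤ L) (hE : IsLevel p K E) (hLE : IsLevel p L E) :
    letI := algKL hKL
    letI := algKE9 hE
    ↥L →ₐ[↥K] ↥E :=
  letI := algKL hKL
  letI := algKE9 hE
  { toE hLE with commutes' := fun _ => rfl }

theorem phiLE_apply (hKL : K ≤ L) (hE : IsLevel p K E) (hLE : IsLevel p L E) (x : ↥L) :
    letI := algKL hKL
    letI := algKE9 hE
    phiLE hKL hE hLE x = toE hLE x := rfl

variable (N : ℕ)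

/-- **`F → F̂`** : `Frac (L ⊗[K] K·F_N) → Frac (E ⊗[K] K·F_N)`. -/
def mapLE (hKL : K ≤ L) (hE : IsLevel p K E) (hLE : IsLevel p L E) :
    letI := algKL hKL
    letI := algKE9 hE
    Fh N K ↥L →+* Fh N K ↥E :=
  letI := algKL hKL
  letI := algKE9 hE
  mapΩ (phiLE hKL hE hLE)

theorem mapLE_injective (hKL : K ≤ L) (hE : IsLevel p K E) (hLE : IsLevel p L E) :
    letI := algKL hKL
    letI := algKE9 hE
    Function.Injective (mapLE N hKL hE hLE) := by
  letI := algKL hKL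
  letI := algKE9 hE
  exact (mapLE N hKL hE hLE).injective

/-- expansions commute with `F → F̂`. -/
theorem expFh_mapLE (hKL : K ≤ L) (hE : IsLevel p K E) (hLE : IsLevel p L E) :
    letI := algKL hKL
    letI := algKE9 hE
    ∀ z : Fh N K ↥L, expFh N K ↥E (mapLE N hKL hE hLE z) =
      coeffMap (toE hLE) (expFh N K ↥L z) := by
  letI := algKL hKL
  letI := algKE9 hE
  intro z
  exact eΩ_mapΩ (phiLE hKL hE hLE) (expAt N K) (expAt_const N K) z

/-- **The `compat` of `AD21.Tensor.setting_tensor`**: for a `W`-algebra map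
`ψ : O_L → O_E` lying over `L → E`, `mapLE (kap x) = kap ((ψ ⊗ id) x)`. -/
theorem mapLE_kap {N : ℕ} (hKL : K ≤ L) (hE : IsLevel p K E) (hLE : IsLevel p L E)
    (B : Subalgebra (Wb p K) ↥(FK N K)) :
    letI := algKL hKL
    letI := algKE9 hE
    letI := algAK (padicPlace p) hKL
    letI := algAKL (padicPlace p) hKL
    letI := algWO hE
    letI := algWE hE
    letI := algOE E
    haveI := isScalarTower_AK (padicPlace p) hKL
    haveI := isScalarTower_AK_K (padicPlace p) hKL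
    haveI := tower_W_O_E hE
    haveI := towerWKE9 hE
    ∀ (ψ : Wb p L →ₐ[Wb p K] ↥(intSubring p E))
      (hψ : ∀ o : Wb p L, ((ψ o : ↥(intSubring p E)) : Kbar p) = iotaW p L o)
      (x : Wb p L ⊗[Wb p K] ↥B),
      mapLE N hKL hE hLE (kap ↥L (Wb p L) B x) =
        kap ↥E ↥(intSubring p E) B (Algebra.TensorProduct.map ψ (AlgHom.id (Wb p K) ↥B) x) := by
  letI := algKL hKL
  letI := algKE9 hE
  letI := algAK (padicPlace p) hKL
  letI := algAKL (padicPlace p) hKL
  letI := algWO hE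
  letI := algWE hE
  letI := algOE E
  haveI := isScalarTower_AK (padicPlace p) hKL
  haveI := isScalarTower_AK_K (padicPlace p) hKL
  haveI := tower_W_O_E hE
  haveI := towerWKE9 hE
  intro ψ hψ x
  refine mapΩ_kappa (phiLE hKL hE hLE) _ _ ψ (fun o => ?_) x
  apply Subtype.ext
  exact hψ o

end Levels

/-! ### The degeneracy maps on the ambient fields -/

section Degen

variable (p M' : ℕ) [NeZero p] [NeZero M'] (K : IntermediateField ℚ Qbar)
  (Ω : Type*) [Field Ω] [Algebra ↥K Ω]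

/-- `α` on the ambient fields. -/
def mapAlpha : FhT M' K Ω →+* FhS p M' K Ω := mapF (Ω := Ω) (alpha K M' p)

/-- `β` on the ambient fields. -/
def mapBeta : FhT M' K Ω →+* FhS p M' K Ω := mapF (Ω := Ω) (beta K M' p)

@[simp] theorem mapAlpha_β (f : ↥(FK M' K)) :
    mapAlpha p M' K Ω (βΩ ↥K Ω ↥(FK M' K) f) = βΩ ↥K Ω ↥(FK (M' * p) K) (alpha K M' p f) :=
  mapF_βΩ _ f

@[simp] theorem mapBeta_β (f : ↥(FK M' K)) :
    mapBeta p M' K Ω (βΩ ↥K Ω ↥(FK M' K) f) = βΩ ↥K Ω ↥(FK (M' * p) K) (beta K M' p f) :=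
  mapF_βΩ _ f

@[simp] theorem mapAlpha_const (c : Ω) :
    mapAlpha p M' K Ω (constΩ ↥K Ω ↥(FK M' K) c) = constΩ ↥K Ω ↥(FK (M' * p) K) c :=
  mapF_constΩ _ c

@[simp] theorem mapBeta_const (c : Ω) :
    mapBeta p M' K Ω (constΩ ↥K Ω ↥(FK M' K) c) = constΩ ↥K Ω ↥(FK (M' * p) K) c :=
  mapF_constΩ _ c

end Degen

end Fermat.Agent.T1B.Hub9
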