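/-
Programme T1B (row 38 via S44), THE CONCRETE HUB (helper9), part EXISTENCE (helper70): THE HUB BASE FIELD.

For a prime `p ≥ 5` and `m` prime to `p` there is a number field `K ⊂ ℚ̄` carrying the parameters
`HubParams p (4 * m) K` of the concrete hub (`ζ_{4m} ∈ K`, `K` inertial at `padicPlace p`), stable under
all of `Gal(ℚ̄/ℚ)`.  Pure wiring of helper46's `Hub46.exists_inertial_zeta_field_four`.

* `exists_hubParams_four p m hp5 hpm : ∃ K, FiniteDimensional ℚ K ∧ HubParams p (4 * m) K ∧ (K Galois-stable)`;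
* `exists_hubParams p M' hp2 h4 hpM` : the same for any level `M'` with `4 ∣ M'`, `p ∤ M'`, `p ≠ 2`.
-/
import Mathlib
import Fermat.Agent.T1B.Hub9.Base
import Fermat.Agent.T1B.Hub46.ExistsField

set_option autoImplicit false
set_option linter.unusedSectionVars false
set_option linter.unusedVariables false

namespace Fermat.Agent.T1B.Hub9

open Fermat.Agent.RED.Interface4 Fermat.Agent.TW.B5.Iface

/-- **Existence of the hub parameters** at any good level `M'` (`4 ∣ M'`, `p ∤ M'`, `p` odd). -/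
theorem exists_hubParams (p : ℕ) [Fact p.Prime] (M' : ℕ) [NeZero M'] (hp2 : p ≠ 2) (h4 : 4 ∣ M')
    (hpM : ¬ p ∣ M') :
    ∃ K : IntermediateField ℚ Qbar, FiniteDimensional ℚ K ∧ HubParams p M' K ∧
      ∀ σ : Qbar ≃ₐ[ℚ] Qbar, ∀ x ∈ K, σ x ∈ K := by
  obtain ⟨K, hfin, hζ, hK, hst⟩ := Fermat.Agent.T1B.Hub46.exists_inertial_zeta_field p M' hpM
  exact ⟨K, hfin, ⟨hp2, h4, hpM, hζ, hK⟩, hst⟩

/-- **Existence of the hub parameters at the level `4 * m` of the local contract** (`p ≥ 5`,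
`p ∤ m`). -/
theorem exists_hubParams_four (p : ℕ) [Fact p.Prime] (m : ℕ) [NeZero (4 * m)] (hp5 : 5 ≤ p)
    (hpm : ¬ p ∣ m) :
    ∃ K : IntermediateField ℚ Qbar, FiniteDimensional ℚ K ∧ HubParams p (4 * m) K ∧
      ∀ σ : Qbar ≃ₐ[ℚ] Qbar, ∀ x ∈ K, σ x ∈ K := by
  obtain ⟨K, hfin, hζ, hK, hst⟩ :=
    Fermat.Agent.T1B.Hub46.exists_inertial_zeta_field_four p m hp5 hpm
  refine ⟨K, hfin, ⟨by omega, Dvd.intro m rfl, ?_, hζ, hK⟩, hst⟩
  have hp : p.Prime := Fact.out
  intro h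
  rcases (Nat.Prime.dvd_mul hp).1 h with h4 | hm
  · have hle : p ≤ 4 := Nat.le_of_dvd (by norm_num) h4
    omega
  · exact hpm hm

end Fermat.Agent.T1B.Hub9
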