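/-
Programme T1B (row 38 via S44), THE CONCRETE HUB (helper9), part FACTS (helper70): THE STANDARD FACTS ON THE
SOURCE CHARTS `B0S H`, `B1S H`, `B0S H ⊔ B1S H` OF THE HUB, in Hub9 vocabulary (pure wiring).

* `isGen_tS H : X0.FF.IsGen ↥K (tS H)`, `isGen_tT H : X0.FF.IsGen ↥K (tT H)` (the Hauptmoduln are
  transcendental generators: `Bridge48.HubRec.isCoord_tN`, `ModelBC51.CoordConcrete.isGen_tK`);
* `algebraMap_W_FS_injective`, `algebraMap_chartS_injective B` (`W → ↥B` injective for every subalgebra);
* `flat_chartS H B : Module.Flat W ↥B` for every subalgebra `B` of `FS` (`flat_B0S`, `flat_B1S`, `flat_B01S`);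
* `finiteType_B0S H`, `finiteType_B1S H`, `finiteType_B01S H : Algebra.FiniteType W ↥_`
  (`DescSep1.NodalFinType`);
* `nontrivial_top H : Nontrivial (Kbar p ⊗[W] ↥(B0S H))` (the `hnt` of `Local66.Bridge.jTop_injective`);
* `h0Const_S H R' : Red68.H0Const ((c0S H).baseChange R')` for EVERY `W`-algebra `R'`
  (`NodalCoh30.concrete_h0Const`), with the special cases `h0Const_top H` (`R' = Kbar p`, the `hH0` of
  `jTop_injective`), `h0Const_level H hE` (`R' = O_E`), `h0Const_E H hE` (`R' = E`).
-/
import Mathlib
import Fermat.Agent.T1B.Hub9.Data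
import Fermat.Agent.T1B.Bridge48.HubRec
import Fermat.Agent.T1B.DescSep1.NodalFinType
import Fermat.Agent.T1B.Bridge54.NontrivTensor
import Fermat.Agent.T1.ModelBC51.CoordConcrete

set_option autoImplicit false
set_option linter.unusedSectionVars false
set_option linter.unusedVariables false
set_option linter.style.haveILetI false

open TensorProduct

noncomputable section

namespace Fermat.Agent.T1B.Hub9

open Fermat.Agent Fermat.Agent.Jac
open Fermat.Agent.RED.Interface4 Fermat.Agent.RED.PUR.GaussGen8
open Fermat.Agent.RED.CORE.CoreIface24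
open Fermat.Agent.T1.Coh60
open Fermat.Agent.T1.HubInst98
open Fermat.Agent.TW.B5.Iface Fermat.Agent.T1.LocModel46 Fermat.Agent.T1.IntSub47
open Fermat.Agent.T1.Assembly41.Concrete
open Fermat.Agent.T1B.Local66.LocalBase
open Fermat.Agent.ES.N34.ModelDefs9 Fermat.Agent.ES.N34.NumData13 Fermat.Agent.ES.N34.NodalCore13
open Fermat.Agent.ES.P36.ModelQAt4
open Fermat.Agent.T1B.NodalFacts23 Fermat.Agent.T1B.NodalCoh30
open scoped Fermat.Agent.T1.Assembly41.FastInst
open scoped Fermat.Agent.Jac.BaseChange75

attribute [local instance] Fermat.Agent.T1.Coh60.algebra0 Fermat.Agent.T1.Coh60.algebra1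
  Fermat.Agent.T1.Coh60.isScalarTower0 Fermat.Agent.T1.Coh60.isScalarTower1

variable {p M' : ℕ} [Fact p.Prime] [NeZero p] [NeZero M'] {K : IntermediateField ℚ Qbar}
  [FiniteDimensional ℚ K]

/-! ### The Hauptmoduln are transcendental generators -/

/-- the Hauptmodul of the bad level is a transcendental generator of `K·F_{M' p}`. -/
theorem isGen_tS (H : HubParams p M' K) : Fermat.Agent.X0.FF.IsGen ↥K (tS H) :=
  Fermat.Agent.T1B.Bridge48.HubRec.isCoord_tN (q := p) (M' := M') (n := 4) (e := 8) H.htq

/-- the Hauptmodul of the good level is a transcendental generator of `K·F_{M'}`. -/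
theorem isGen_tT (H : HubParams p M' K) : Fermat.Agent.X0.FF.IsGen ↥K (tT H) :=
  Fermat.Agent.T1.ModelBC51.CoordConcrete.isGen_tK (famT H) K H.hζ

/-! ### Injectivity, flatness, finite type -/

variable (p M' K) in
theorem algebraMap_W_FS_injective : Function.Injective (algebraMap (Wb p K) (FS p M' K)) := by
  rw [IsScalarTower.algebraMap_eq (Wb p K) ↥K (FS p M' K)]
  exact (algebraMap ↥K (FS p M' K)).injective.comp Subtype.val_injective

/-- `W → ↥B` is injective for every subalgebra `B` of the function field of the bad level. -/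
theorem algebraMap_chartS_injective (B : Subalgebra (Wb p K) (FS p M' K)) :
    Function.Injective (algebraMap (Wb p K) ↥B) := fun _ _ hab =>
  algebraMap_W_FS_injective p M' K (congrArg (fun z : ↥B => (z : FS p M' K)) hab)

/-- every subalgebra of the function field of the bad level is flat over `W`. -/
theorem flat_chartS (H : HubParams p M' K) (B : Subalgebra (Wb p K) (FS p M' K)) :
    Module.Flat (Wb p K) ↥B :=
  (cohDatum_of_numData (numDataS H)).flat_subalgebra B

theorem flat_B0S (H : HubParams p M' K) : Module.Flat (Wb p K) ↥(B0S H) := flat_chartS H _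

theorem flat_B1S (H : HubParams p M' K) : Module.Flat (Wb p K) ↥(B1S H) := flat_chartS H _

theorem flat_B01S (H : HubParams p M' K) : Module.Flat (Wb p K) ↥(B0S H ⊔ B1S H) := flat_chartS H _

/-- chart `0` of the source is a `W`-algebra of finite type. -/
theorem finiteType_B0S (H : HubParams p M' K) : Algebra.FiniteType (Wb p K) ↥(B0S H) :=
  haveI := isDVR p K
  Fermat.Agent.T1B.DescSep1.NodalFinType.finiteType_chart0 (K := ↥K) (modelS H) (isGen_tS H)

/-- chart `1` of the source is a `W`-algebra of finite type. -/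
theorem finiteType_B1S (H : HubParams p M' K) : Algebra.FiniteType (Wb p K) ↥(B1S H) :=
  haveI := isDVR p K
  Fermat.Agent.T1B.DescSep1.NodalFinType.finiteType_chart1 (K := ↥K) (modelS H) (isGen_tS H)

/-- the overlap of the source is a `W`-algebra of finite type. -/
theorem finiteType_B01S (H : HubParams p M' K) :
    Algebra.FiniteType (Wb p K) ↥(B0S H ⊔ B1S H) :=
  haveI := isDVR p K
  Fermat.Agent.T1B.DescSep1.NodalFinType.finiteType_overlap (K := ↥K) (modelS H) (isGen_tS H)

/-! ### Nontriviality over `ℚ̄_p` -/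

/-- **`hnt`** of `Local66.Bridge.jTop_injective` at the hub. -/
theorem nontrivial_top (H : HubParams p M' K) :
    letI := algWKbar p K
    Nontrivial (Kbar p ⊗[Wb p K] ↥(B0S H)) :=
  Fermat.Agent.T1B.Bridge54.NontrivTensor.nontrivial_Kbar_tensor ↥(B0S H)
    (algebraMap_chartS_injective (B0S H))

/-! ### `H⁰(X_{R'}, O) = R'` for every base ring -/

/-- **`H0Const` of the hub curve over EVERY `W`-algebra `R'`.** -/
theorem h0Const_S (H : HubParams p M' K) (R' : Type) [CommRing R'] [Algebra (Wb p K) R'] :
    Fermat.Agent.T1.Red68.H0Const ((c0S H).baseChange R') :=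
  concrete_h0Const (isUnif_piW p K) (hES p M' K) (numDataS H) R'

/-- **`hH0`** of `Local66.Bridge.jTop_injective` at the hub. -/
theorem h0Const_top (H : HubParams p M' K) :
    letI := algWKbar p K
    Fermat.Agent.T1.Red68.H0Const ((c0S H).baseChange (Kbar p)) := by
  letI := algWKbar p K
  exact h0Const_S H (Kbar p)

/-- `H0Const` over the level rings `O_E`. -/
theorem h0Const_level (H : HubParams p M' K) {E : IntermediateField ℚ_[p] (Kbar p)}
    (hE : IsLevel p K E) :
    letI := algWO hE
    Fermat.Agent.T1.Red68.H0Const ((c0S H).baseChange ↥(intSubring p E)) := by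
  letI := algWO hE
  exact h0Const_S H ↥(intSubring p E)

/-- `H0Const` over the level fields `E`. -/
theorem h0Const_E (H : HubParams p M' K) {E : IntermediateField ℚ_[p] (Kbar p)}
    (hE : IsLevel p K E) :
    letI := algWE hE
    Fermat.Agent.T1.Red68.H0Const ((c0S H).baseChange ↥E) := by
  letI := algWE hE
  exact h0Const_S H ↥E

end Fermat.Agent.T1B.Hub9
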