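/-
Programme T1B (row 38 via S44), THE CONCRETE HUB (helper9), part LEVEL (helper70): THE LEVEL RINGS
`O_E = intSubring p E` OVER `W = Wb p K`.

For a number field `K ⊂ ℚ̄` (finite over `ℚ`), a level `E` of `K` (`hE : IsLevel p K E`), finite over `ℚ_p`,
and the `W`-algebra structure `algWO hE` (`= (toO hE).toAlgebra`, reducible, use `letI`):

* `norm_iotaW_lt_one_of_not_isUnit`, `norm_iotaW_piW_lt_one : ‖iotaW p K (piW p K)‖ < 1`
  (the hypothesis `hπ` of `Union81.Master` / `HubToric`);
* `toO_injective`, `toO_piW_mem_maximalIdeal`, `isLocalHom_toO`, `isLocalHom_algebraMap_O`;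
* `flat_O hE : Module.Flat (Wb p K) ↥(intSubring p E)` (torsion-free over the Bézout domain `W`);
* `isAdicComplete_O E` (re-export of `Union81.isAdicComplete_intSubring`);
* `targetHyp_level H hE hϖ : Cmp15.TargetHyp (DT H) ↥(intSubring p E) ϖ` for every uniformiser `ϖ` of
  `O_E` (helper15's `Cmp15.targetHyp_of_model` at the smooth model `modelT H` of the good level).
-/
import Mathlib
import Fermat.Agent.T1B.Hub9.Data
import Fermat.Agent.T1B.Union81.IntSubDVR
import Fermat.Agent.T1B.Cmp15.TargetModel

set_option autoImplicit false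
set_option linter.unusedSectionVars false
set_option linter.unusedVariables false
set_option linter.style.haveILetI false

noncomputable section

namespace Fermat.Agent.T1B.Hub9

open Fermat.Agent Fermat.Agent.Jac
open Fermat.Agent.RED.Interface4 Fermat.Agent.RED.PUR.GaussGen8
open Fermat.Agent.RED.CORE.CoreIface24
open Fermat.Agent.T1.Coh60
open Fermat.Agent.T1.HubInst98
open Fermat.Agent.TW.B5.Iface Fermat.Agent.T1.LocModel46 Fermat.Agent.T1.IntSub47
open Fermat.Agent.T1.Assembly41.Concrete
open Fermat.Agent.T1B.Local66.LocalBase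
open Fermat.Agent.T1.CechFormal70
open scoped Fermat.Agent.T1.Assembly41.FastInst

attribute [local instance] Fermat.Agent.T1.Coh60.algebra0 Fermat.Agent.T1.Coh60.algebra1
  Fermat.Agent.T1.Coh60.isScalarTower0 Fermat.Agent.T1.Coh60.isScalarTower1

variable {p : ℕ} [Fact p.Prime] {K : IntermediateField ℚ Qbar}

/-! ### The uniformiser of `W` has norm `< 1` -/

/-- A non-unit of `W = A ∩ K` has `p`-adic norm `< 1`. -/
theorem norm_iotaW_lt_one_of_not_isUnit {w : Wb p K} (hw : ¬ IsUnit w) : ‖iotaW p K w‖ < 1 := by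
  by_contra h
  have h1 : ‖iotaW p K w‖ = 1 := le_antisymm (norm_iotaW_le_one p K w) (not_lt.1 h)
  apply hw
  have hw0 : (w : ↥K) ≠ 0 := by
    intro h0
    have : iotaW p K w = 0 := by
      show iotaK p K (w : ↥K) = 0
      rw [h0, map_zero]
    rw [this, norm_zero] at h1
    exact zero_ne_one h1
  have hinv : ((w : ↥K))⁻¹ ∈ AK (padicPlace p) K := by
    rw [← norm_iota_jL_le_one_iff]
    show ‖iotaK p K ((w : ↥K))⁻¹‖ ≤ 1
    rw [map_inv₀, norm_inv]
    have h2 : ‖iotaK p K (w : ↥K)‖ = 1 := h1
    rw [h2, inv_one]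
  exact ⟨⟨w, ⟨_, hinv⟩, Subtype.ext (mul_inv_cancel₀ hw0), Subtype.ext (inv_mul_cancel₀ hw0)⟩, rfl⟩

variable (p K) in
/-- **The chosen uniformiser of `W` has norm `< 1`** (the hypothesis `hπ` of `Union81.Master`). -/
theorem norm_iotaW_piW_lt_one [FiniteDimensional ℚ K] : ‖iotaW p K (piW p K)‖ < 1 :=
  norm_iotaW_lt_one_of_not_isUnit (piW_irreducible p K).not_isUnit

/-! ### `W → O_E` -/

section Level

variable {E : IntermediateField ℚ_[p] (Kbar p)}

theorem toO_injective (hE : IsLevel p K E) : Function.Injective (toO hE) := fun x y h =>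
  iotaW_injective p K (congrArg (fun z : ↥(intSubring p E) => (z : Kbar p)) h)

variable [FiniteDimensional ℚ_[p] E]

/-- `W → O_E` maps non-units into the maximal ideal. -/
theorem toO_mem_maximalIdeal_of_not_isUnit (hE : IsLevel p K E) {w : Wb p K} (hw : ¬ IsUnit w) :
    letI := isLocalRing p E
    toO hE w ∈ IsLocalRing.maximalIdeal ↥(intSubring p E) := by
  letI := isLocalRing p E
  exact (Fermat.Agent.T1B.Union81.mem_maximalIdeal_iff p).2 (norm_iotaW_lt_one_of_not_isUnit hw)

/-- `W → O_E` maps the uniformiser into the maximal ideal. -/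
theorem toO_piW_mem_maximalIdeal [FiniteDimensional ℚ K] (hE : IsLevel p K E) :
    letI := isLocalRing p E
    toO hE (piW p K) ∈ IsLocalRing.maximalIdeal ↥(intSubring p E) :=
  toO_mem_maximalIdeal_of_not_isUnit hE (piW_irreducible p K).not_isUnit

/-- the same, in `algebraMap` form (the hypothesis `hO` of `Toric50.Final.towerInput`). -/
theorem algebraMap_piW_mem_maximalIdeal [FiniteDimensional ℚ K] (hE : IsLevel p K E) :
    letI := isLocalRing p E
    letI := algWO hE
    algebraMap (Wb p K) ↥(intSubring p E) (piW p K) ∈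
      IsLocalRing.maximalIdeal ↥(intSubring p E) :=
  toO_piW_mem_maximalIdeal hE

/-- **`W → O_E` is a local homomorphism.** -/
theorem isLocalHom_toO (hE : IsLevel p K E) : IsLocalHom (toO hE) := by
  letI := isLocalRing p E
  refine ⟨fun a ha => ?_⟩
  by_contra hna
  exact (IsLocalRing.mem_maximalIdeal _).1 (toO_mem_maximalIdeal_of_not_isUnit hE hna) ha

/-- the same, for the structure map of `algWO hE`. -/
theorem isLocalHom_algebraMap_O (hE : IsLevel p K E) :
    letI := algWO hE
    IsLocalHom (algebraMap (Wb p K) ↥(intSubring p E)) :=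
  isLocalHom_toO hE

end Level

/-- **`O_E` is flat over `W`** (torsion-free over a Bézout domain; no finiteness needed). -/
theorem flat_O {E : IntermediateField ℚ_[p] (Kbar p)} (hE : IsLevel p K E) :
    letI := algWO hE
    Module.Flat (Wb p K) ↥(intSubring p E) := by
  letI := algWO hE
  rw [Module.Flat.flat_iff_torsion_eq_bot_of_isBezout, eq_bot_iff]
  intro x hx
  rw [Submodule.mem_torsion_iff] at hx
  obtain ⟨a, ha⟩ := hx
  rw [Submodule.mem_bot]
  have ha0 : toO hE (a : Wb p K) ≠ 0 := fun h0 =>
    nonZeroDivisors.ne_zero a.2 (toO_injective hE (by rw [h0, map_zero]))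
  have hmul : toO hE (a : Wb p K) * x = 0 := ha
  exact (mul_eq_zero.1 hmul).resolve_left ha0

/-- `O_E` is `𝔪`-adically complete (re-export of `Union81.isAdicComplete_intSubring`). -/
theorem isAdicComplete_O (E : IntermediateField ℚ_[p] (Kbar p)) [FiniteDimensional ℚ_[p] E] :
    letI := isLocalRing p E
    IsAdicComplete (IsLocalRing.maximalIdeal ↥(intSubring p E)) ↥(intSubring p E) :=
  Fermat.Agent.T1B.Union81.isAdicComplete_intSubring p E

/-! ### The target hypotheses of `Cmp15.cmp_core` at every level -/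

variable {M' : ℕ} [NeZero p] [NeZero M']

/-- **`TargetHyp` of the smooth model of the good level `M'`, over every level ring `O_E`** and every
uniformiser `ϖ` of `O_E`. -/
theorem targetHyp_level [FiniteDimensional ℚ K] (H : HubParams p M' K)
    {E : IntermediateField ℚ_[p] (Kbar p)} [FiniteDimensional ℚ_[p] E] (hE : IsLevel p K E)
    {ϖ : ↥(intSubring p E)} (hϖ : Irreducible ϖ) :
    letI := algWO hE
    Fermat.Agent.T1B.Cmp15.TargetHyp (DT H) ↥(intSubring p E) ϖ := by
  letI := algWO hE
  haveI : IsDiscreteValuationRing ↥(intSubring p E) := isDVR_O E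
  haveI : IsLocalHom (algebraMap (Wb p K) ↥(intSubring p E)) := isLocalHom_algebraMap_O hE
  haveI : Module.Flat (Wb p K) ↥(intSubring p E) := flat_O hE
  exact Fermat.Agent.T1B.Cmp15.targetHyp_of_model (isUnif_piW p K) (hET p M' K) (modelT H) (DT H)
    (fun _ => rfl) (fun _ => rfl) ↥(intSubring p E) hϖ

end Fermat.Agent.T1B.Hub9
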