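/-
Programme T1B (row 38 via S44), THE CONCRETE HUB (helper9), part 4: THE TWO DEGENERACY MORPHISMS
`Mα`, `Mβ : (B0T, B1T, B01T) → (B0S, B1S, B01S)` AND THEIR NORM SYSTEMS on the hub names
(adapter for helper99's `NormModel99.Malpha / Mbeta` and helper11's `ChartMor.normSys`).

* `normDataS H : NormData (AK (padicPlace p) K) (alpha K M' p) (beta K M' p) (tM H.htq)`;
* `MalphaS H`, `MbetaS H : ChartMor (Wb p K) ↥(B0S H) ↥(B1S H) ↥(B0S H ⊔ B1S H)
    ↥(B0T H) ↥(B1T H) ↥(B0T H ⊔ B1T H)` with the `coe` lemmas;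
* `SalphaS H`, `SbetaS H : NormSys (DS H) (DT H)`;
* `alphaLin H`, `betaLin H : ↥(B0T H ⊔ B1T H) →ₗ[Wb p K] ↥(B0S H ⊔ B1S H)` with
  `alphaLin_res0/1`, `betaLin_res0/1` (= `hα0 hα1 hβ0 hβ1` of `Toric50.Master`).
-/
import Mathlib
import Fermat.Agent.T1B.Hub9.Data
import Fermat.Agent.T1B.NormModel99.ChartMorInst
import Fermat.Agent.T1B.NormModel99.ModelAt

set_option autoImplicit false
set_option linter.unusedSectionVars false
set_option linter.unusedVariables false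
set_option linter.style.haveILetI false
set_option maxHeartbeats 1000000
set_option synthInstance.maxHeartbeats 400000

noncomputable section

namespace Fermat.Agent.T1B.Hub9

open Fermat.Agent Fermat.Agent.Jac
open Fermat.Agent.RED.Interface4 Fermat.Agent.RED.PUR.GaussGen8
open Fermat.Agent.RED.PUR.ChartGeneric22 Fermat.Agent.RED.BASE.Hauptmodul12
open Fermat.Agent.RED.BASE.EtaQuot12 Fermat.Agent.RED.CORE.CoreIface24
open Fermat.Agent.T1.ModelUnr4.Explicit Fermat.Agent.T1.Coh60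
open Fermat.Agent.X0
open Fermat.Agent.T1.Assembly41.Concrete
open Fermat.Agent.T1B.Local66.LocalBase
open Fermat.Agent.ES.N34.ModelDefs9
open Fermat.Agent.T1.CechFormal70
open Fermat.Agent.T1B.Toric11 Fermat.Agent.T1B.NormModel99
open scoped Fermat.Agent.T1.Assembly41.FastInst

attribute [local instance] Fermat.Agent.T1.Coh60.algebra0 Fermat.Agent.T1.Coh60.algebra1
  Fermat.Agent.T1.Coh60.isScalarTower0 Fermat.Agent.T1.Coh60.isScalarTower1

variable {p M' : ℕ} [Fact p.Prime] [NeZero p] [NeZero M'] {K : IntermediateField ℚ Qbar}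
  [FiniteDimensional ℚ K]

/-- helper99's two-level package at the hub. -/
theorem normDataS (H : HubParams p M' K) :
    NormData (AK (padicPlace p) K) (alpha K M' p) (beta K M' p) (tM H.htq) :=
  normData_four_at H.hp H.hp2 H.hpM H.h4 (hA p) H.hζ H.htq

/-- **`Mα`** : the finite projective morphism of two-chart data induced by `α = B_1^*`. -/
def MalphaS (H : HubParams p M' K) :
    ChartMor (Wb p K) ↥(B0S H) ↥(B1S H) ↥(B0S H ⊔ B1S H) ↥(B0T H) ↥(B1T H) ↥(B0T H ⊔ B1T H) :=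
  haveI := isDVR p K
  Malpha (normDataS H)

/-- **`Mβ`** : the finite projective morphism of two-chart data induced by `β = B_p^*`. -/
def MbetaS (H : HubParams p M' K) :
    ChartMor (Wb p K) ↥(B0S H) ↥(B1S H) ↥(B0S H ⊔ B1S H) ↥(B0T H) ↥(B1T H) ↥(B0T H ⊔ B1T H) :=
  haveI := isDVR p K
  Mbeta (normDataS H)

variable (H : HubParams p M' K)

@[simp] theorem MalphaS_α0_coe (x : ↥(B0T H)) :
    (((MalphaS H).α0 x : ↥(B0S H)) : FS p M' K) = alphaST p M' K (x : FT M' K) := rfl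

@[simp] theorem MalphaS_α1_coe (x : ↥(B1T H)) :
    (((MalphaS H).α1 x : ↥(B1S H)) : FS p M' K) = alphaST p M' K (x : FT M' K) := rfl

@[simp] theorem MalphaS_α01_coe (x : ↥(B0T H ⊔ B1T H)) :
    (((MalphaS H).α01 x : ↥(B0S H ⊔ B1S H)) : FS p M' K) = alphaST p M' K (x : FT M' K) := rfl

@[simp] theorem MalphaS_t0_coe : (((MalphaS H).t0 : ↥(B0T H)) : FT M' K) = tT H := rfl

@[simp] theorem MalphaS_t1_coe : (((MalphaS H).t1 : ↥(B1T H)) : FT M' K) = (tT H)⁻¹ := rfl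

@[simp] theorem MbetaS_α0_coe (x : ↥(B0T H)) :
    (((MbetaS H).α0 x : ↥(B0S H)) : FS p M' K) = betaST p M' K (x : FT M' K) := rfl

@[simp] theorem MbetaS_α1_coe (x : ↥(B1T H)) :
    (((MbetaS H).α1 x : ↥(B1S H)) : FS p M' K) = betaST p M' K (x : FT M' K) := rfl

@[simp] theorem MbetaS_α01_coe (x : ↥(B0T H ⊔ B1T H)) :
    (((MbetaS H).α01 x : ↥(B0S H ⊔ B1S H)) : FS p M' K) = betaST p M' K (x : FT M' K) := rfl

@[simp] theorem MbetaS_t0_coe : (((MbetaS H).t0 : ↥(B0T H)) : FT M' K) = tT H := rfl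

@[simp] theorem MbetaS_t1_coe : (((MbetaS H).t1 : ↥(B1T H)) : FT M' K) = (tT H)⁻¹ := rfl

/-- **The norm system of `α`** from the source Čech datum to the target Čech datum. -/
def SalphaS : NormSys (DS H) (DT H) :=
  (MalphaS H).normSys (DS H) (DT H) (DS_ρ0 H) (DS_ρ1 H) (DT_ρ0 H) (DT_ρ1 H)

/-- **The norm system of `β`**. -/
def SbetaS : NormSys (DS H) (DT H) :=
  (MbetaS H).normSys (DS H) (DT H) (DS_ρ0 H) (DS_ρ1 H) (DT_ρ0 H) (DT_ρ1 H)

/-- `α` on the overlaps, as a `W`-linear map. -/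
def alphaLin : ↥(B0T H ⊔ B1T H) →ₗ[Wb p K] ↥(B0S H ⊔ B1S H) := (MalphaS H).α01.toLinearMap

/-- `β` on the overlaps, as a `W`-linear map. -/
def betaLin : ↥(B0T H ⊔ B1T H) →ₗ[Wb p K] ↥(B0S H ⊔ B1S H) := (MbetaS H).α01.toLinearMap

@[simp] theorem alphaLin_apply (x : ↥(B0T H ⊔ B1T H)) : alphaLin H x = (MalphaS H).α01 x := rfl

@[simp] theorem betaLin_apply (x : ↥(B0T H ⊔ B1T H)) : betaLin H x = (MbetaS H).α01 x := rfl

theorem alphaLin_res0 (a : ↥(B0T H)) : ∃ a0 : ↥(B0S H), alphaLin H ((DT H).ρ0 a) = (DS H).ρ0 a0 :=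
  ⟨(MalphaS H).α0 a, (MalphaS H).comm0 a⟩

theorem alphaLin_res1 (a : ↥(B1T H)) : ∃ a1 : ↥(B1S H), alphaLin H ((DT H).ρ1 a) = (DS H).ρ1 a1 :=
  ⟨(MalphaS H).α1 a, (MalphaS H).comm1 a⟩

theorem betaLin_res0 (a : ↥(B0T H)) : ∃ a0 : ↥(B0S H), betaLin H ((DT H).ρ0 a) = (DS H).ρ0 a0 :=
  ⟨(MbetaS H).α0 a, (MbetaS H).comm0 a⟩

theorem betaLin_res1 (a : ↥(B1T H)) : ∃ a1 : ↥(B1S H), betaLin H ((DT H).ρ1 a) = (DS H).ρ1 a1 :=
  ⟨(MbetaS H).α1 a, (MbetaS H).comm1 a⟩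

end Fermat.Agent.T1B.Hub9
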